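import Fermat.Agent.CycRk.Main
import Fermat.Agent.TW56.Fin
import Fermat.Agent.CFT.Places

/-!
# The bound used in S56
-/

set_option autoImplicit false

namespace Fermat.Agent.CycRk

open Fermat.Agent.TW56

theorem z1Bound {p : ℕ} [Fact p.Prime] (hp2 : p ≠ 2) (k : Type) [Field k] [Finite k]
    [Algebra (ZMod p) k] : Z1Bound p k :=
  z1_cyc_rank hp2 (Fermat.Agent.CFT.padicPlace_liesOver p) k

end Fermat.Agent.CycRk
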