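import Fermat.Agent.CycRk.Struct
import Fermat.Agent.TW56.Ord
import Fermat.Agent.CFT.H90

/-!
# The space of cyclotomic cocycles of a decomposition group at `p` has rank at most three
-/

set_option autoImplicit false
set_option linter.unusedSectionVars false
set_option maxHeartbeats 400000

noncomputable section

namespace Fermat.Agent.CycRk

open Fermat.Agent.ECRed Fermat.Agent.FlatLoc Fermat.Agent.TW56 IsLocalRing OrdFn
open scoped Pointwise

local notation "Qbar" => AlgebraicClosure ℚ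
local notation "GQ" => (AlgebraicClosure ℚ ≃ₐ[ℚ] AlgebraicClosure ℚ)

variable {p : ℕ} [hp : Fact p.Prime] {A : ValuationSubring Qbar}

/-- Kummer theory for cyclotomic cocycles -/
theorem exists_kummer {u : DD A → ZMod p} (hu : u ∈ Z1c p (ZMod p) A) :
    ∃ y : Qbar, y ≠ 0 ∧ ∀ σ : DD A, (σ : GQ) y = ψp p (u σ) * y := by
  obtain ⟨h1, K₀, hK₀, h2⟩ := hu
  let N : Subgroup (DD A) := K₀.fixingSubgroup.comap (A.decompositionSubgroup ℚ).subtype
  have : K₀.fixingSubgroup.FiniteIndex := by
    have : Finite (GQ ⧸ K₀.fixingSubgroup) :=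
      Subgroup.quotient_finite_of_isOpen _ (IntermediateField.fixingSubgroup_isOpen K₀)
    exact Subgroup.finiteIndex_of_finite_quotient
  have : N.FiniteIndex := by
    change (K₀.fixingSubgroup.subgroupOf (A.decompositionSubgroup ℚ)).FiniteIndex
    infer_instance
  let α : DD A → Qbarˣ := fun σ => Units.mk0 (ψp p (u σ)) (by
    intro h
    have h3 := psi_pow (p := p) (u σ)
    rw [h, zero_pow hp.out.ne_zero] at h3
    exact zero_ne_one h3)
  obtain ⟨β, -, hβ⟩ := CFT.hilbert90 (U := DD A) (Ω := Qbar) N (by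
      intro g hg
      change (g : GQ) ∈ K₀.fixingSubgroup
      rw [IntermediateField.mem_fixingSubgroup_iff]
      intro x hx
      exact hg x fun n hn => (IntermediateField.mem_fixingSubgroup_iff K₀ _).mp hn x hx) α (by
      intro g h
      change ψp p (u (g * h)) = ψp p (u g) * (g : GQ) (ψp p (u h))
      rw [h1, cyc_spec, ← AddChar.map_add_eq_mul]
      rfl) (by
      intro n hn
      apply Units.ext
      change ψp p (u n) = 1
      rw [h2 n fun x hx => (IntermediateField.mem_fixingSubgroup_iff K₀ _).mp hn x hx,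
        AddChar.map_zero_eq_one])
  exact ⟨β, β.ne_zero, fun σ => (hβ σ).symm⟩

/-- the data attached to a cocycle -/
theorem exists_dat (hp2 : p ≠ 2) (hA : A.LiesOverPrime p) {u : DD A → ZMod p}
    (hu : u ∈ Z1c p (ZMod p) A) :
    ∃ (n j : Fin p) (w : Qbar), w ≠ 0 ∧ w ^ p = (p : Qbar) ^ (n : ℕ) * (1 + p) ^ (j : ℕ) ∧
      ∀ σ : DD A, (σ : GQ) w = ψp p (u σ) * w := by
  obtain ⟨y, hy0, hy⟩ := exists_kummer hu
  have hF : Fx A (y ^ p) := fun σ => by
    rw [map_pow, hy, mul_pow, psi_pow, one_mul]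
  obtain ⟨n, j, e, he0, he, hz⟩ := Fx.struct hA hp2 (pow_ne_zero p hy0) hF
  refine ⟨n, j, y / e, div_ne_zero hy0 he0, ?_, fun σ => ?_⟩
  · rw [div_pow, hz, mul_div_cancel_right₀ _ (pow_ne_zero p he0)]
  · rw [map_div₀, hy, he]
    ring

/-- the basic coboundary -/
def cb (p : ℕ) [hp : Fact p.Prime] (A : ValuationSubring Qbar) : DD A → ZMod p :=
  fun σ => (cyc p (σ : GQ) : ZMod p) - 1

theorem exists_inj (hp2 : p ≠ 2) (hA : A.LiesOverPrime p) :
    ∃ f : Z1c p (ZMod p) A → Fin p × Fin p × ZMod p, Function.Injective f := by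
  classical
  choose n j w hw0 hw hσ using fun u : Z1c p (ZMod p) A => exists_dat hp2 hA u.2
  have hdiff : ∀ u u' : Z1c p (ZMod p) A, n u = n u' → j u = j u' →
      ∃ i : ZMod p, (u : DD A → ZMod p) = (u' : DD A → ZMod p) + i • cb p A := by
    intro u u' h1 h2
    have h3 : (w u / w u') ^ p = 1 := by
      rw [div_pow, hw, hw, h1, h2, div_self]
      rw [← h1, ← h2, ← hw]
      exact pow_ne_zero _ (hw0 u)
    have hprim : IsPrimitiveRoot (ψp p 1) p := by
      refine IsPrimitiveRoot.mk_of_lt _ hp.out.pos (psi_pow 1) ?_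
      intro l hl hlp h
      rw [← AddChar.map_nsmul_eq_pow, ← AddChar.map_zero_eq_one (ψp p)] at h
      have h1 := ψp_inj h
      rw [nsmul_one, ZMod.natCast_eq_zero_iff] at h1
      exact absurd (Nat.le_of_dvd hl h1) (not_le.mpr hlp)
    obtain ⟨i, -, hi⟩ := hprim.eq_pow_of_pow_eq_one h3
    rw [← AddChar.map_nsmul_eq_pow, nsmul_one] at hi
    refine ⟨(i : ZMod p), ?_⟩
    funext σ
    have h4 : (σ : GQ) (w u / w u') = ψp p (u.1 σ - u'.1 σ) * (w u / w u') := by
      rw [map_div₀, hσ, hσ, sub_eq_add_neg, AddChar.map_add_eq_mul, AddChar.map_neg_eq_inv]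
      have h5 : ψp p (u'.1 σ) ≠ 0 := by
        intro h
        have h3 := psi_pow (p := p) (u'.1 σ)
        rw [h, zero_pow hp.out.ne_zero] at h3
        exact zero_ne_one h3
      have := hw0 u'
      field_simp
    rw [← hi, cyc_spec, ← AddChar.map_add_eq_mul] at h4
    have h5 := ψp_inj h4
    simp only [Pi.add_apply, Pi.smul_apply, cb, smul_eq_mul]
    linear_combination -h5
  -- representatives
  let r : Fin p × Fin p → Z1c p (ZMod p) A := fun x =>
    if h : ∃ u, (n u, j u) = x then h.choose else 0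
  have hr : ∀ u, n (r (n u, j u)) = n u ∧ j (r (n u, j u)) = j u := by
    intro u
    have h : ∃ v, (n v, j v) = (n u, j u) := ⟨u, rfl⟩
    have h1 : r (n u, j u) = h.choose := dif_pos h
    have h2 := h.choose_spec
    rw [h1]
    exact ⟨congrArg Prod.fst h2, congrArg Prod.snd h2⟩
  choose i hi using fun u => hdiff u (r (n u, j u)) (hr u).1.symm (hr u).2.symm
  refine ⟨fun u => (n u, j u, i u), fun u v huv => ?_⟩
  simp only [Prod.mk.injEq] at huv
  apply Subtype.ext
  rw [hi u, hi v, huv.1, huv.2.1, huv.2.2]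

theorem finrank_le (hp2 : p ≠ 2) (hA : A.LiesOverPrime p) :
    Finite (Z1c p (ZMod p) A) ∧ Module.finrank (ZMod p) (Z1c p (ZMod p) A) ≤ 3 := by
  obtain ⟨f, hf⟩ := exists_inj hp2 hA
  haveI : NeZero p := ⟨hp.out.ne_zero⟩
  have hfin : Finite (Z1c p (ZMod p) A) := Finite.of_injective f hf
  refine ⟨hfin, ?_⟩
  have h1 := Nat.card_le_card_of_injective f hf
  rw [Nat.card_prod, Nat.card_prod, Nat.card_zmod, Nat.card_fin] at h1
  have : Module.Finite (ZMod p) (Z1c p (ZMod p) A) := Module.Finite.of_finite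
  have h2 := Module.natCard_eq_pow_finrank (K := ZMod p) (V := Z1c p (ZMod p) A)
  rw [h2, Nat.card_zmod] at h1
  by_contra hcon
  push Not at hcon
  have h3 : p ^ 4 ≤ p ^ Module.finrank (ZMod p) (Z1c p (ZMod p) A) :=
    Nat.pow_le_pow_right hp.out.pos hcon
  have h4 : p ^ 3 < p ^ 4 := Nat.pow_lt_pow_right hp.out.one_lt (by norm_num)
  have h5 : p * (p * p) = p ^ 3 := by ring
  omega

/-- **the bound** -/
theorem z1_cyc_rank (hp2 : p ≠ 2) (hA : A.LiesOverPrime p) (k : Type) [Field k] [Finite k]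
    [Algebra (ZMod p) k] : Module.rank k (Z1c p k A) ≤ (3 : ℕ) := by
  classical
  obtain ⟨hfin, hrk⟩ := finrank_le hp2 hA
  have : Module.Finite (ZMod p) (Z1c p (ZMod p) A) := Module.Finite.of_finite
  let b := Module.finBasis (ZMod p) k
  let z := Module.finBasis (ZMod p) (Z1c p (ZMod p) A)
  let Z : Fin (Module.finrank (ZMod p) (Z1c p (ZMod p) A)) → (DD A → k) :=
    fun t σ => algebraMap (ZMod p) k ((z t : DD A → ZMod p) σ)
  have hle : Z1c p k A ≤ Submodule.span k (Set.range Z) := by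
    rintro u ⟨h1, K₀, hK₀, h2⟩
    have hui : ∀ i, (fun σ => b.repr (u σ) i) ∈ Z1c p (ZMod p) A := by
      intro i
      refine ⟨fun σ τ => ?_, K₀, hK₀, fun σ hσ => ?_⟩
      · change b.repr (u (σ * τ)) i = _
        rw [h1, ← Algebra.smul_def, map_add, map_smul, Finsupp.add_apply, Finsupp.smul_apply]
        rfl
      · change b.repr (u σ) i = 0
        rw [h2 σ hσ, map_zero, Finsupp.zero_apply]
    have hu : u = ∑ i, ∑ t, (b i * algebraMap (ZMod p) k (z.repr ⟨_, hui i⟩ t)) • Z t := by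
      funext σ
      rw [Finset.sum_apply]
      conv_lhs => rw [← b.sum_repr (u σ)]
      refine Finset.sum_congr rfl fun i _ => ?_
      rw [Finset.sum_apply]
      have h3 := congrArg (fun v : Z1c p (ZMod p) A => (v : DD A → ZMod p) σ)
        (z.sum_repr ⟨_, hui i⟩)
      simp only [AddSubmonoidClass.coe_finsetSum, Submodule.coe_smul_of_tower, Finset.sum_apply,
        Pi.smul_apply, smul_eq_mul] at h3
      rw [← h3, Algebra.smul_def, map_sum, Finset.sum_mul]
      refine Finset.sum_congr rfl fun t _ => ?_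
      simp only [Pi.smul_apply, smul_eq_mul, map_mul, Z]
      ring
    rw [hu]
    refine Submodule.sum_mem _ fun i _ => Submodule.sum_mem _ fun t _ =>
      Submodule.smul_mem _ _ (Submodule.subset_span ⟨t, rfl⟩)
  refine (Submodule.rank_mono hle).trans ((rank_span_le _).trans ?_)
  refine (Cardinal.mk_range_le).trans ?_
  rw [Cardinal.mk_fin]
  exact_mod_cast hrk

end Fermat.Agent.CycRk
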