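import Fermat.Agent.FlatLoc.Inst
import Fermat.Agent.FlatLoc.Zeta
import Fermat.Agent.Frob.Exists
import Fermat.Agent.FrobDens.Fixed

/-!
# The `p`-th power classes of the fixed field of a decomposition group at `p`
-/

set_option autoImplicit false
set_option linter.unusedSectionVars false

noncomputable section

namespace Fermat.Agent.CycRk

open Fermat.Agent.ECRed Fermat.Agent.FlatLoc IsLocalRing OrdFn
open scoped Polynomial Pointwise

local notation "Qbar" => AlgebraicClosure ℚ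
local notation "GQ" => (AlgebraicClosure ℚ ≃ₐ[ℚ] AlgebraicClosure ℚ)

variable {p : ℕ} [hp : Fact p.Prime] {A : ValuationSubring Qbar} (hA : A.LiesOverPrime p)

/-- fixed by the decomposition group -/
def Fx (A : ValuationSubring Qbar) (z : Qbar) : Prop := ∀ σ : DD A, (σ : GQ) z = z

variable {hA}

lemma Fx.mul {x y : Qbar} (hx : Fx A x) (hy : Fx A y) : Fx A (x * y) := fun σ => by
  rw [map_mul, hx, hy]

lemma Fx.add {x y : Qbar} (hx : Fx A x) (hy : Fx A y) : Fx A (x + y) := fun σ => by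
  rw [map_add, hx, hy]

lemma Fx.sub {x y : Qbar} (hx : Fx A x) (hy : Fx A y) : Fx A (x - y) := fun σ => by
  rw [map_sub, hx, hy]

lemma Fx.inv {x : Qbar} (hx : Fx A x) : Fx A x⁻¹ := fun σ => by rw [map_inv₀, hx]

lemma Fx.div {x y : Qbar} (hx : Fx A x) (hy : Fx A y) : Fx A (x / y) := fun σ => by
  rw [map_div₀, hx, hy]

lemma Fx.pow {x : Qbar} (hx : Fx A x) (n : ℕ) : Fx A (x ^ n) := fun σ => by rw [map_pow, hx]

lemma Fx.zpow {x : Qbar} (hx : Fx A x) (n : ℤ) : Fx A (x ^ n) := fun σ => by rw [map_zpow₀, hx]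

lemma Fx.nat (n : ℕ) : Fx A (n : Qbar) := fun σ => map_natCast _ n

lemma Fx.one : Fx A 1 := fun σ => map_one _

lemma Fx.int_val {z : Qbar} (h : Fx A z) (hz : z ≠ 0) : ∃ n : ℤ, (vA hA).ord z = n :=
  int_val_II hA hz fun σ => h (σ : DD A)

lemma Fx.ge_succ {z : Qbar} (h : Fx A z) {n : ℕ} (hz : (vA hA).Gt n z) :
    (vA hA).Ge (n + 1 : ℕ) z := by
  rcases hz with hz | hz
  · exact Or.inl hz
  by_cases hz0 : z = 0
  · exact Or.inl hz0
  obtain ⟨m, hm⟩ := h.int_val (hA := hA) hz0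
  right
  rw [hm] at hz ⊢
  have h1 : (n : ℤ) < m := by exact_mod_cast hz
  have h2 : ((n + 1 : ℕ) : ℤ) ≤ m := by push_cast; omega
  exact_mod_cast h2

/-- the residue of a fixed integral element is an integer -/
lemma Fx.res_int {z : Qbar} (h : Fx A z) (hz : (vA hA).Ge 0 z) :
    ∃ m : ℕ, m < p ∧ (vA hA).Gt 0 (z - m) := by
  have := charP_res hA
  obtain ⟨φ, hφ⟩ := Frob.exists_isFrobeniusAt_Qbar A hp.out hA
  have hzA : z ∈ A := (ge_vA hA).mp hz
  have h1 := hφ.smul_residue_eq (residue A ⟨z, hzA⟩)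
  have h2 : (⟨φ, hφ.mem_decompositionSubgroup⟩ : A.decompositionSubgroup ℚ) •
      residue A ⟨z, hzA⟩ = residue A ⟨z, hzA⟩ := by
    change residue A ((⟨φ, hφ.mem_decompositionSubgroup⟩ : A.decompositionSubgroup ℚ) •
      (⟨z, hzA⟩ : A)) = _
    congr 1
    apply Subtype.ext
    exact h ⟨φ, hφ.mem_decompositionSubgroup⟩
  rw [h2] at h1
  obtain ⟨n, hn⟩ := FrobDens.exists_int_of_pow_eq hp.out h1.symm
  refine ⟨n.val, ZMod.val_lt n, ?_⟩
  rw [gt_vA]
  have h3 : residue A ⟨z, hzA⟩ = residue A (n.val : A) := by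
    rw [← hn, map_natCast]
    conv_lhs => rw [← ZMod.natCast_zmod_val n, map_natCast]
  have h4 := (FrobDens.residue_eq_iff A _ _).mp h3
  have h5 : (((n.val : ℕ) : A) : Qbar) = ((n.val : ℕ) : Qbar) := by push_cast; rfl
  rw [h5] at h4
  exact h4

/-- Hensel's lemma for `p`-th roots -/
lemma Fx.exists_root (hp2 : p ≠ 2) {z : Qbar} (h : Fx A z) (hz : (vA hA).Ge 2 (z - 1)) :
    ∃ y : Qbar, y ≠ 0 ∧ Fx A y ∧ y ^ p = z := by
  classical
  have hp3 : 3 ≤ p := by
    have := hp.out.two_le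
    omega
  have hp3' : (3 : ℝ) ≤ p := by exact_mod_cast hp3
  have hvp := ord_p hp.out hA
  have hz0 : z ≠ 0 := by
    rintro rfl
    rw [zero_sub] at hz
    have := (OrdFn.ge_iff (neg_ne_zero.mpr one_ne_zero)).mp hz
    rw [OrdFn.ord_neg, OrdFn.ord_one] at this
    linarith
  have hz1 : (vA hA).Eq 0 z := by
    have h1 := (eq_one (v := vA hA)).add_gt (hz.gt (by norm_num : (0 : ℝ) < 2))
    rwa [add_sub_cancel] at h1
  obtain ⟨y₀, hy₀⟩ := IsAlgClosed.exists_pow_nat_eq z hp.out.pos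
  have hy₀0 : y₀ ≠ 0 := by
    rintro rfl
    rw [zero_pow hp.out.ne_zero] at hy₀
    exact hz0 hy₀.symm
  have hy₀v : (vA hA).Eq 0 y₀ := by
    refine ⟨hy₀0, ?_⟩
    have h1 := OrdFn.ord_pow (v := vA hA) hy₀0 p
    rw [hy₀, hz1.2] at h1
    have hp0 : (p : ℝ) ≠ 0 := by exact_mod_cast hp.out.ne_zero
    rcases mul_eq_zero.mp h1.symm with h2 | h2
    · exact absurd h2 hp0
    · exact h2
  have hprim : IsPrimitiveRoot (ψp p 1) p := by
    refine IsPrimitiveRoot.mk_of_lt _ hp.out.pos (psi_pow 1) ?_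
    intro l hl hlp h
    rw [← AddChar.map_nsmul_eq_pow, ← AddChar.map_zero_eq_one (ψp p)] at h
    have h1 := ψp_inj h
    rw [nsmul_one, ZMod.natCast_eq_zero_iff] at h1
    exact absurd (Nat.le_of_dvd hl h1) (not_le.mpr hlp)
  have hprod : z - 1 = ∏ w ∈ Polynomial.nthRootsFinset p (1 : Qbar), (y₀ - w) := by
    have h1 := Polynomial.X_pow_sub_one_eq_prod hp.out.pos hprim
    have h2 := congrArg (Polynomial.eval y₀) h1
    rw [Polynomial.eval_prod] at h2
    rw [← hy₀]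
    simpa using h2
  -- a root of unity close to `y₀`
  obtain ⟨w, hw, hwy⟩ : ∃ w : Qbar, w ^ p = 1 ∧ (vA hA).Gt (1 / ((p : ℝ) - 1)) (y₀ - w) := by
    by_contra hcon
    push Not at hcon
    have hlt : ∀ s ⊆ Polynomial.nthRootsFinset p (1 : Qbar), (∏ w ∈ s, (y₀ - w)) ≠ 0 ∧
        ((vA hA).ord (∏ w ∈ s, (y₀ - w)) ≤ s.card * (1 / ((p : ℝ) - 1))) := by
      intro s
      induction s using Finset.induction_on with
      | empty => intro _; simp [OrdFn.ord_one]
      | insert b s hb ih =>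
        intro hs
        obtain ⟨h1, h2⟩ := ih fun x hx => hs (Finset.mem_insert_of_mem hx)
        have hb1 : b ^ p = 1 :=
          (Polynomial.mem_nthRootsFinset hp.out.pos _).mp (hs (Finset.mem_insert_self _ _))
        have h3 := OrdFn.not_gt_iff.mp (hcon b hb1)
        rw [Finset.prod_insert hb, Finset.card_insert_of_notMem hb]
        refine ⟨mul_ne_zero h3.1 h1, ?_⟩
        rw [OrdFn.ord_mul h3.1 h1]
        push_cast
        linarith [h3.2]
    have hcard : (Polynomial.nthRootsFinset p (1 : Qbar)).card = p := hprim.card_nthRootsFinset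
    obtain ⟨h1, h3⟩ := hlt _ subset_rfl
    rw [← hprod, hcard] at h3
    rw [← hprod] at h1
    have h6 := (OrdFn.ge_iff h1).mp hz
    have h7 : (p : ℝ) * (1 / ((p : ℝ) - 1)) < 2 := by
      rw [mul_one_div, div_lt_iff₀ (by linarith)]
      linarith
    linarith
  have hw0 : w ≠ 0 := by
    rintro rfl
    rw [zero_pow hp.out.ne_zero] at hw
    exact zero_ne_one hw
  have hwv : (vA hA).Eq 0 w := ord_root_of_unity hp.out.ne_zero hw
  set y := y₀ / w with hy
  have hy0 : y ≠ 0 := div_ne_zero hy₀0 hw0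
  have hyp : y ^ p = z := by rw [hy, div_pow, hy₀, hw, div_one]
  have hy1 : (vA hA).Gt (1 / ((p : ℝ) - 1)) (y - 1) := by
    have h1 : y - 1 = (y₀ - w) * w⁻¹ := by rw [hy]; field_simp
    rw [h1]
    have h2 := hwy.mul_ge hwv.inv.ge
    simpa using h2
  refine ⟨y, hy0, fun σ => ?_, hyp⟩
  have hyv : (vA hA).Eq 0 y := by
    have h2 := hy₀v.mul hwv.inv
    rw [← div_eq_mul_inv] at h2
    simpa using h2
  have h1 : ((σ : GQ) y / y) ^ p = 1 := by
    rw [div_pow, ← map_pow, hyp, h σ, div_self hz0]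
  obtain ⟨j, -, hj⟩ := hprim.eq_pow_of_pow_eq_one h1
  have hσy : (σ : GQ) y = ψp p j * y := by
    rw [← AddChar.map_nsmul_eq_pow, nsmul_one] at hj
    rw [hj, div_mul_cancel₀ _ hy0]
  by_cases hj0 : (j : ZMod p) = 0
  · rw [hσy, hj0, AddChar.map_zero_eq_one, one_mul]
  exfalso
  have h2 := eq_addChar_sub_one (v := vA hA) hvp ψp_inj hj0
  have h3 : (vA hA).Gt (1 / ((p : ℝ) - 1)) ((σ : GQ) y - 1) := by
    have h4 : (σ : GQ) y - 1 = σ • (y - 1) := by
      rw [smul_sub, smul_one, smul_DD]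
    rw [h4]
    rcases hy1 with h5 | h5
    · left; rw [h5, smul_zero]
    · right; rw [ord_DD]; exact h5
  have h4 : (vA hA).Gt (1 / ((p : ℝ) - 1)) ((ψp p j - 1) * y) := by
    have h5 : (ψp p j - 1) * y = ((σ : GQ) y - 1) - (y - 1) := by rw [hσy]; ring
    rw [h5]
    exact h3.sub hy1
  have h5 := h2.mul hyv
  rw [add_zero] at h5
  exact h5.not_gt h4

lemma one_add_pow_eq (s : Qbar) (n : ℕ) : ∃ P : ℤ[X], (1 + s) ^ n =
    1 + n * s + s ^ 2 * Polynomial.aeval s P := by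
  induction n with
  | zero => exact ⟨0, by simp⟩
  | succ n ih =>
    obtain ⟨P, hP⟩ := ih
    refine ⟨(n : ℤ[X]) + P + Polynomial.X * P, ?_⟩
    rw [pow_succ, hP]
    simp only [map_add, map_natCast, map_mul, Polynomial.aeval_X]
    push_cast
    ring

/-- the structure of fixed elements modulo `p`-th powers -/
theorem Fx.struct (hA : A.LiesOverPrime p) (hp2 : p ≠ 2) {z : Qbar} (hz0 : z ≠ 0) (h : Fx A z) :
    ∃ (n j : Fin p) (e : Qbar), e ≠ 0 ∧ Fx A e ∧ z = (p : Qbar) ^ (n : ℕ) * (1 + p) ^ (j : ℕ) *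
      e ^ p := by
  have hvp := ord_p hp.out hA
  have hp0 : (p : Qbar) ≠ 0 := by exact_mod_cast hp.out.ne_zero
  have hpos : 0 < p := hp.out.pos
  obtain ⟨n0, hn0⟩ := h.int_val (hA := hA) hz0
  -- a unit
  set a := z * ((p : Qbar) ^ n0)⁻¹ with ha
  have haF : Fx A a := h.mul (((Fx.nat p).zpow n0).inv)
  have hav : (vA hA).Eq 0 a := by
    refine ⟨mul_ne_zero hz0 (inv_ne_zero (zpow_ne_zero _ hp0)), ?_⟩
    rw [ha, OrdFn.ord_mul hz0 (inv_ne_zero (zpow_ne_zero _ hp0)),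
      OrdFn.ord_inv _ (zpow_ne_zero _ hp0), OrdFn.ord_zpow hp0, hvp, hn0]
    ring
  obtain ⟨m, hm, hma⟩ := haF.res_int hav.ge
  have hmv : (vA hA).Eq 0 (m : Qbar) := by
    have h1 : (m : Qbar) = a - (a - m) := by ring
    rw [h1]
    exact hav.sub_gt hma
  have hm0 : (m : Qbar) ≠ 0 := hmv.1
  have hmp : (vA hA).Ge 1 ((m : Qbar) ^ p - m) := by
    have h1 : (p : ℤ) ∣ (m : ℤ) ^ p - m := by
      rw [← (ZMod.intCast_zmod_eq_zero_iff_dvd _ p)]
      push_cast
      rw [ZMod.pow_card, sub_self]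
    obtain ⟨c, hc⟩ := h1
    have h2 : (m : Qbar) ^ p - m = (p : Qbar) * (c : Qbar) := by exact_mod_cast congrArg (Int.cast : ℤ → Qbar) hc
    rw [h2]
    have h3 : (vA hA).Ge 1 (p : Qbar) := Or.inr hvp.ge
    have h4 := h3.mul (ge_intCast (v := vA hA) c)
    simpa using h4
  set b := a / (m : Qbar) ^ p with hb
  have hbF : Fx A b := haF.div ((Fx.nat m).pow p)
  have hmpv : (vA hA).Eq 0 ((m : Qbar) ^ p) := by simpa using hmv.pow p
  have hb1 : (vA hA).Ge 1 (b - 1) := by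
    have h1 : b - 1 = (a - m - ((m : Qbar) ^ p - m)) * ((m : Qbar) ^ p)⁻¹ := by
      rw [hb]; field_simp; ring
    have h2 : (vA hA).Gt 0 (b - 1) := by
      rw [h1]
      have h3 := (hma.sub (hmp.gt one_pos)).mul_ge hmpv.inv.ge
      simpa using h3
    have h3 := (hbF.sub Fx.one).ge_succ (n := 0) (by simpa using h2)
    simpa using h3
  -- second level
  set t := (b - 1) / p with ht
  have htF : Fx A t := (hbF.sub Fx.one).div (Fx.nat p)
  have hpv : (vA hA).Eq 1 (p : Qbar) := ⟨hp0, hvp⟩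
  have htv : (vA hA).Ge 0 t := by
    have h1 := hb1.mul hpv.inv.ge
    rw [← div_eq_mul_inv] at h1
    simpa using h1
  obtain ⟨j, hj, hjt⟩ := htF.res_int htv
  have hjt1 : (vA hA).Ge 1 (t - j) := by
    have h3 := (htF.sub (Fx.nat j)).ge_succ (n := 0) (by simpa using hjt)
    simpa using h3
  have hu : (vA hA).Eq 0 (1 + (p : Qbar)) :=
    (eq_one (v := vA hA)).add_gt (hpv.gt one_pos)
  have huj : (vA hA).Eq 0 ((1 + (p : Qbar)) ^ j) := by simpa using hu.pow j
  set c := b / (1 + (p : Qbar)) ^ j with hc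
  have hcF : Fx A c := hbF.div ((Fx.one.add (Fx.nat p)).pow j)
  have hc2 : (vA hA).Ge 2 (c - 1) := by
    obtain ⟨P, hP⟩ := one_add_pow_eq (p : Qbar) j
    have hPv : (vA hA).Ge 0 (Polynomial.aeval (p : Qbar) P) := by
      have h1 : Polynomial.aeval (p : Qbar) P = ((P.eval (p : ℤ) : ℤ) : Qbar) := by
        have h2 := Polynomial.aeval_algebraMap_apply_eq_algebraMap_eval (A := Qbar) (p : ℤ) P
        simpa using h2
      rw [h1]
      exact ge_intCast _
    have hbt : b = 1 + p * t := by rw [ht]; field_simp; ring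
    have h1 : c - 1 = (p * (t - j) - (p : Qbar) ^ 2 * Polynomial.aeval (p : Qbar) P) *
        ((1 + (p : Qbar)) ^ j)⁻¹ := by
      rw [hc, div_sub_one huj.1, hP, div_eq_mul_inv, ← hP, hbt, hP]
      ring
    rw [h1]
    have h2 : (vA hA).Ge 2 ((p : Qbar) * (t - j)) := by
      have := hpv.ge.mul hjt1
      norm_num at this
      exact this
    have h3 : (vA hA).Ge 2 ((p : Qbar) ^ 2 * Polynomial.aeval (p : Qbar) P) := by
      have := hpv.pow_two.ge.mul hPv
      norm_num at this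
      exact this
    have h4 := (h2.sub h3).mul huj.inv.ge
    simpa using h4
  obtain ⟨y, hy0, hyF, hyp⟩ := hcF.exists_root hp2 hc2
  -- assemble
  have hn : n0 = p * (n0 / p) + n0 % p := (Int.mul_ediv_add_emod n0 p).symm
  have hmod0 : 0 ≤ n0 % (p : ℤ) := Int.emod_nonneg _ (by exact_mod_cast hp.out.ne_zero)
  have hmodlt : n0 % (p : ℤ) < p := Int.emod_lt_of_pos _ (by exact_mod_cast hpos)
  refine ⟨⟨(n0 % p).toNat, by omega⟩, ⟨j, hj⟩, (p : Qbar) ^ (n0 / p) * m * y,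
    mul_ne_zero (mul_ne_zero (zpow_ne_zero _ hp0) hm0) hy0,
    (((Fx.nat p).zpow _).mul (Fx.nat m)).mul hyF, ?_⟩
  have h1 : z = (p : Qbar) ^ n0 * ((m : Qbar) ^ p * ((1 + (p : Qbar)) ^ j * y ^ p)) := by
    rw [hyp, hc, mul_div_cancel₀ _ huj.1, hb, mul_div_cancel₀ _ hmpv.1, ha]
    rw [mul_comm z, mul_inv_cancel_left₀ (zpow_ne_zero _ hp0)]
  have h2 : (p : Qbar) ^ n0 = ((p : Qbar) ^ (n0 / p)) ^ p * (p : Qbar) ^ ((n0 % p).toNat) := by
    conv_lhs => rw [hn]
    rw [zpow_add₀ hp0, mul_comm (p : ℤ), zpow_mul, zpow_natCast]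
    congr 1
    rw [← zpow_natCast, Int.toNat_of_nonneg hmod0]
  rw [h1, h2]
  simp only [mul_pow]
  ring

end Fermat.Agent.CycRk
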